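import Fermat.Agent.S14.H34.Defs

/-!
# S14, block DENSITY (helper34): the four interface statements

`ZetaBounds`, `GoodMass`, `CharBound`, `KummerBound` are the four pieces from which
`Fermat.Agent.S14.H34.exists_prime_of_density_of` (file `Density.lean`) is assembled.
-/

set_option autoImplicit false

namespace Fermat.Agent.S14.H34

open NumberField Ideal nonZeroDivisors IsDedekindDomain

noncomputable section

variable (K : Type*) [Field K] [NumberField K]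

/-- (Z) the pole of the zeta function: two-sided bound near `1`. -/
def ZetaBounds : Prop :=
  ∃ c C δ : ℝ, 0 < c ∧ 0 < δ ∧ ∀ s : ℝ, 1 < s → s < 1 + δ →
    c / (s - 1) ≤ zetaI K s ∧ zetaI K s ≤ C / (s - 1)

/-- (A) the primes of degree one outside a finite set carry the mass of the zeta function. -/
def GoodMass : Prop :=
  ∀ Bad : Finset (HeightOneSpectrum (𝓞 K)),
    ∃ C : ℝ, 0 < C ∧ ∀ s : ℝ, 1 < s → s ≤ 2 → ∃ T : Finset (HeightOneSpectrum (𝓞 K)),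
      (∀ v ∈ T, (absNorm v.asIdeal).Prime ∧ v ∉ Bad) ∧
        zetaI K s ≤ C * ∏ v ∈ T, (1 + pN s v)

/-- (C) primes in the kernel of a character of order `p` have density at most `1/p`. -/
def CharBound : Prop :=
  ∀ (p : ℕ), p.Prime → ∀ χ : ClassGroup (𝓞 K) →* ℂˣ, χ ^ p = 1 →
    (∀ k : ℕ, 0 < k → k < p → LBounded K (χ ^ k)) →
    ∃ C : ℝ, 0 < C ∧ ∀ s : ℝ, 1 < s → s ≤ 2 → ∀ T : Finset (HeightOneSpectrum (𝓞 K)),
      (∀ v ∈ T, χ (ClassGroup.mk0 (primeNZ v)) = 1) →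
        (∏ v ∈ T, (1 + pN s v)) ^ p ≤ C * zetaI K s

/-- (N3) primes modulo which `η` is a `p`-th power have density at most `1/p`. -/
def KummerBound : Prop :=
  ∀ (p : ℕ), p.Prime → ∀ ζ : K, IsPrimitiveRoot ζ p →
    ∀ η : 𝓞 K, (∀ y : K, y ^ p ≠ (η : K)) →
    ∃ C δ : ℝ, 0 < C ∧ 0 < δ ∧ ∀ s : ℝ, 1 < s → s < 1 + δ →
      ∀ T : Finset (HeightOneSpectrum (𝓞 K)),
        (∀ v ∈ T, (p : 𝓞 K) ∉ v.asIdeal ∧ η ∉ v.asIdeal ∧ ∃ y : 𝓞 K, y ^ p - η ∈ v.asIdeal) →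
          (∏ v ∈ T, (1 + pN s v)) ^ p ≤ C / (s - 1)

end

end Fermat.Agent.S14.H34
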