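import Mathlib

/-!
# S14, block DENSITY (helper34): basic definitions

Sums over the nonzero ideals of the ring of integers of a number field.
-/

set_option autoImplicit false

namespace Fermat.Agent.S14.H34

open NumberField Ideal nonZeroDivisors IsDedekindDomain

noncomputable section

variable (K : Type*) [Field K] [NumberField K]

/-- `N(I)^(-s)` for a nonzero ideal `I`. -/
def nrm (s : ℝ) (I : (Ideal (𝓞 K))⁰) : ℝ :=
  (absNorm (I : Ideal (𝓞 K)) : ℝ) ^ (-s)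

/-- The Dedekind zeta function as a sum over nonzero ideals (real argument). -/
def zetaI (s : ℝ) : ℝ := ∑' I : (Ideal (𝓞 K))⁰, nrm K s I

/-- The `L`-series of a character of the class group (real argument). -/
def Lser (χ : ClassGroup (𝓞 K) →* ℂˣ) (s : ℝ) : ℂ :=
  ∑' I : (Ideal (𝓞 K))⁰, (χ (ClassGroup.mk0 I) : ℂ) * ((nrm K s I : ℝ) : ℂ)

/-- The `L`-series of `χ` is bounded on `(1, 2]` (output of block N1 for `χ ≠ 1`). -/
def LBounded (χ : ClassGroup (𝓞 K) →* ℂˣ) : Prop :=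
  ∃ B : ℝ, ∀ s : ℝ, 1 < s → s ≤ 2 → ‖Lser K χ s‖ ≤ B

variable {K}

/-- A nonzero prime ideal as a nonzero ideal. -/
def primeNZ (v : HeightOneSpectrum (𝓞 K)) : (Ideal (𝓞 K))⁰ :=
  ⟨v.asIdeal, mem_nonZeroDivisors_of_ne_zero v.ne_bot⟩

@[simp] theorem coe_primeNZ (v : HeightOneSpectrum (𝓞 K)) :
    ((primeNZ v : (Ideal (𝓞 K))⁰) : Ideal (𝓞 K)) = v.asIdeal := rfl

/-- `N(v)^(-s)` for a nonzero prime ideal. -/
def pN (s : ℝ) (v : HeightOneSpectrum (𝓞 K)) : ℝ := nrm K s (primeNZ v)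

theorem pN_def (s : ℝ) (v : HeightOneSpectrum (𝓞 K)) :
    pN s v = (absNorm v.asIdeal : ℝ) ^ (-s) := rfl

end

end Fermat.Agent.S14.H34
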